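/-
S16 (helper18, backup of R-B): the divisor sums `sigmaPrime p n = ∑_{d ∣ n, p ∤ d} d` and their
Hecke recursion.  Mathlib only.
-/
import Mathlib

set_option autoImplicit false

namespace Fermat.Agent.S16.H18

/-- Sum of the divisors of `k` prime to `p`. -/
def sigmaPrime (p k : ℕ) : ℤ := ∑ d ∈ k.divisors.filter (fun d => ¬ p ∣ d), (d : ℤ)

theorem sigmaPrime_one (p : ℕ) (hp : p ≠ 1) : sigmaPrime p 1 = 1 := by
  have h : (Nat.divisors 1).filter (fun d => ¬ p ∣ d) = {1} := by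
    ext d
    simp only [Nat.divisors_one, Finset.mem_filter, Finset.mem_singleton]
    constructor
    · exact fun h => h.1
    · rintro rfl
      exact ⟨rfl, fun h => hp (Nat.dvd_one.mp h)⟩
  rw [sigmaPrime, h]
  simp

/-- `σ'(n p) = σ'(n)`. -/
theorem sigmaPrime_mul_self {p : ℕ} (hp : p.Prime) {n : ℕ} (hn : n ≠ 0) :
    sigmaPrime p (n * p) = sigmaPrime p n := by
  have h : (n * p).divisors.filter (fun d => ¬ p ∣ d) = n.divisors.filter (fun d => ¬ p ∣ d) := by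
    ext d
    simp only [Finset.mem_filter, Nat.mem_divisors]
    constructor
    · rintro ⟨⟨hd, -⟩, hpd⟩
      refine ⟨⟨?_, hn⟩, hpd⟩
      have hcop : Nat.Coprime d p := ((Nat.Prime.coprime_iff_not_dvd hp).mpr hpd).symm
      exact hcop.dvd_of_dvd_mul_right hd
    · rintro ⟨⟨hd, -⟩, hpd⟩
      exact ⟨⟨hd.mul_right p, mul_ne_zero hn hp.ne_zero⟩, hpd⟩
  rw [sigmaPrime, sigmaPrime, h]

/-- The Hecke recursion at a prime `l ≠ p`:
`σ'(n l) + [l ∣ n] l σ'(n / l) = (1 + l) σ'(n)`. -/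
theorem sigmaPrime_mul_prime {p l : ℕ} (hp : p.Prime) (hl : l.Prime) (hlp : l ≠ p) {n : ℕ}
    (hn : n ≠ 0) :
    sigmaPrime p (n * l) + (if l ∣ n then (l : ℤ) * sigmaPrime p (n / l) else 0)
      = (1 + (l : ℤ)) * sigmaPrime p n := by
  classical
  have hpl : ¬ p ∣ l := fun h => hlp ((Nat.prime_dvd_prime_iff_eq hp hl).mp h).symm
  set D : Finset ℕ := n.divisors.filter (fun d => ¬ p ∣ d) with hD
  set A : Finset ℕ := (n * l).divisors.filter (fun d => ¬ p ∣ d) with hA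
  -- split `A` according to `d ∣ n`
  have hA1 : A.filter (fun d => d ∣ n) = D := by
    ext d
    simp only [hA, hD, Finset.mem_filter, Nat.mem_divisors]
    constructor
    · rintro ⟨⟨-, hpd⟩, hdn⟩
      exact ⟨⟨hdn, hn⟩, hpd⟩
    · rintro ⟨⟨hdn, -⟩, hpd⟩
      exact ⟨⟨⟨hdn.mul_right l, mul_ne_zero hn hl.ne_zero⟩, hpd⟩, hdn⟩
  -- the part of `D` with `l e ∤ n`
  set B : Finset ℕ := D.filter (fun e => ¬ l * e ∣ n) with hB
  have hA2 : A.filter (fun d => ¬ d ∣ n) = B.image (fun e => l * e) := by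
    ext d
    simp only [hA, hB, hD, Finset.mem_filter, Nat.mem_divisors, Finset.mem_image]
    constructor
    · rintro ⟨⟨⟨hd, -⟩, hpd⟩, hdn⟩
      have hld : l ∣ d := by
        by_contra hld
        have hcop : Nat.Coprime d l := ((Nat.Prime.coprime_iff_not_dvd hl).mpr hld).symm
        exact hdn (hcop.dvd_of_dvd_mul_right hd)
      obtain ⟨e, rfl⟩ := hld
      refine ⟨e, ⟨⟨⟨?_, hn⟩, fun hpe => hpd (hpe.mul_left l)⟩, hdn⟩, rfl⟩
      rw [mul_comm n l] at hd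
      exact Nat.dvd_of_mul_dvd_mul_left hl.pos hd
    · rintro ⟨e, ⟨⟨⟨hen, -⟩, hpe⟩, hlen⟩, rfl⟩
      refine ⟨⟨⟨?_, mul_ne_zero hn hl.ne_zero⟩, ?_⟩, hlen⟩
      · rw [mul_comm n l]
        exact Nat.mul_dvd_mul_left l hen
      · intro h
        rcases (Nat.Prime.dvd_mul hp).mp h with h | h
        · exact hpl h
        · exact hpe h
  have hsumA : (∑ d ∈ A, (d : ℤ)) = (∑ d ∈ D, (d : ℤ)) + ∑ e ∈ B, ((l : ℤ) * e) := by
    rw [← Finset.sum_filter_add_sum_filter_not A (fun d => d ∣ n), hA1, hA2,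
      Finset.sum_image (fun x _ y _ h => Nat.eq_of_mul_eq_mul_left hl.pos h)]
    push_cast
    rfl
  -- the complementary part of `D`
  have hC : (∑ e ∈ D.filter (fun e => l * e ∣ n), (e : ℤ))
      = if l ∣ n then sigmaPrime p (n / l) else 0 := by
    split_ifs with hln
    · rw [sigmaPrime]
      refine Finset.sum_congr ?_ fun _ _ => rfl
      ext e
      simp only [hD, Finset.mem_filter, Nat.mem_divisors]
      constructor
      · rintro ⟨⟨-, hpe⟩, hlen⟩
        refine ⟨⟨(Nat.dvd_div_iff_mul_dvd hln).mpr hlen, ?_⟩, hpe⟩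
        exact (Nat.div_pos (Nat.le_of_dvd (Nat.pos_of_ne_zero hn) hln) hl.pos).ne'
      · rintro ⟨⟨hen, -⟩, hpe⟩
        have hlen : l * e ∣ n := (Nat.dvd_div_iff_mul_dvd hln).mp hen
        exact ⟨⟨⟨(dvd_mul_left e l).trans hlen, hn⟩, hpe⟩, hlen⟩
    · refine Finset.sum_eq_zero fun e he => ?_
      exact absurd ((dvd_mul_right l e).trans (Finset.mem_filter.mp he).2) hln
  have hsplit : (∑ e ∈ D, (e : ℤ)) = (∑ e ∈ D.filter (fun e => l * e ∣ n), (e : ℤ))
      + ∑ e ∈ B, (e : ℤ) := by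
    rw [hB, Finset.sum_filter_add_sum_filter_not D (fun e => l * e ∣ n)]
  have hsn : sigmaPrime p n = ∑ e ∈ D, (e : ℤ) := rfl
  have hsnl : sigmaPrime p (n * l) = ∑ d ∈ A, (d : ℤ) := rfl
  have hite : (if l ∣ n then (l : ℤ) * sigmaPrime p (n / l) else 0)
      = (l : ℤ) * (if l ∣ n then sigmaPrime p (n / l) else 0) := by
    split_ifs <;> simp
  rw [hsnl, hsn, hite, ← hC, hsumA, ← Finset.mul_sum]
  rw [hsplit]
  ring

end Fermat.Agent.S16.H18
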