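/-
S16 (helper18, independent backup of package R-B): duality between the weight-two Hecke ring of
level `p` and the lattice of cusp forms with integral `q`-expansion, in the form

  `exists_form_congruent` : if the Eisenstein character modulo `m` kills `ker rho`, there is a
  cusp form `f` with integral coefficients `a_k(f) ≡ σ'(k) (mod m)` for all `k ≥ 1`.

Ingredients: Hecke polynomials `P_n` with `a₁(P_n f) = a_n(f)` and Eisenstein value `σ'(n)`
(`exists_heckePoly`), injectivity of the pairing `(t, f) ↦ a₁(t f)` on both sides, equality of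
ranks, finiteness of the cokernel, surjectivity of `rho`.
-/
import Mathlib
import Fermat.Prelude.Def_CuspForm_HeckeLocal
import Fermat.Prelude.Def_CuspForm_HeckeEvalForms
import Fermat.Prelude.Def_HeckeGalois_EichlerShimura
import Fermat.Agent.S49.Forms
import Fermat.Agent.S16.H18.SigmaPrime

set_option autoImplicit false

noncomputable section

namespace Fermat.Agent.S16.H18

open CuspForm CongruenceSubgroup ModularFormClass ModularCurve

variable (p : ℕ) [Fact p.Prime]

/-- The map of the frozen statement. -/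
abbrev rho : ModularCurve.HeckeAlg →+* ↥(heckeLatticeAlgebra p ∅) :=
  (latticeRestrictHom p ∅).toRingHom.comp (heckeEvalForms p 2)

/-- The action of the abstract Hecke algebra on weight-two cusp forms of level `p`. -/
def actHom : ModularCurve.HeckeAlg →+* Module.End ℂ (CuspForm (Gamma0 p) 2) :=
  (heckeAlgebra p 2 ∅).val.toRingHom.comp (heckeEvalForms p 2)

theorem actHom_apply (P : ModularCurve.HeckeAlg) :
    actHom p P = ((heckeEvalForms p 2 P : heckeAlgebra p 2 ∅) :
      Module.End ℂ (CuspForm (Gamma0 p) 2)) := rfl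

theorem actHom_X_of_dvd (ℓ : Nat.Primes) (h : (ℓ : ℕ) ∣ p) :
    actHom p (MvPolynomial.X ℓ) = heckeULin 2 h := by
  rw [actHom_apply]
  have := heckeEvalForms_heckeGen_of_dvd (N := p) (k := 2) h
  rw [show (MvPolynomial.X ℓ : ModularCurve.HeckeAlg) = heckeGen ℓ from rfl, this]
  rfl

theorem actHom_X_of_not_dvd (ℓ : Nat.Primes) (h : ¬ (ℓ : ℕ) ∣ p) :
    actHom p (MvPolynomial.X ℓ) = heckeTLin 2 ℓ.2 h := by
  rw [actHom_apply]
  have := heckeEvalForms_heckeGen_of_not_dvd (N := p) (k := 2) h
  rw [show (MvPolynomial.X ℓ : ModularCurve.HeckeAlg) = heckeGen ℓ from rfl, this]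
  rfl

theorem actHom_C (z : ℤ) (f : CuspForm (Gamma0 p) 2) :
    actHom p (MvPolynomial.C z) f = (z : ℂ) • f := by
  rw [actHom_apply, heckeEvalForms_C]
  rw [Subalgebra.coe_algebraMap]
  ext τ
  simp

/-- For every `n ≥ 1` there is a Hecke polynomial `P` with `a₁(P f) = aₙ(f)` for all `f`,
whose Eisenstein value is `σ'(n)`. -/
theorem exists_heckePoly : ∀ n : ℕ, 1 ≤ n → ∃ P : ModularCurve.HeckeAlg,
    (∀ f : CuspForm (Gamma0 p) 2, qCoeff ⇑(actHom p P f) 1 = qCoeff ⇑f n) ∧
      MvPolynomial.aeval (ModularCurve.eisensteinSystem p) P = sigmaPrime p n := by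
  have hp : p.Prime := Fact.out
  intro n
  induction n using Nat.strong_induction_on with
  | _ n ih =>
    intro hn
    rcases Nat.eq_or_lt_of_le hn with h1 | h1
    · subst h1
      refine ⟨1, fun f => ?_, ?_⟩
      · rw [map_one]; rfl
      · rw [map_one, sigmaPrime_one p hp.one_lt.ne']
    · -- `n ≥ 2`
      have hn1 : n ≠ 1 := by omega
      obtain ⟨ℓ, hℓn⟩ : ∃ ℓ : Nat.Primes, (ℓ : ℕ) ∣ n :=
        ⟨⟨n.minFac, Nat.minFac_prime hn1⟩, Nat.minFac_dvd n⟩
      have hl : (ℓ : ℕ).Prime := ℓ.2
      obtain ⟨n', hn'⟩ := hℓn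
      have hn'pos : 1 ≤ n' := by
        rcases Nat.eq_zero_or_pos n' with h | h
        · subst h; omega
        · exact h
      have hn'lt : n' < n := by
        have := hl.two_le
        nlinarith
      have hnmul : n = n' * (ℓ : ℕ) := by rw [hn', mul_comm]
      obtain ⟨P', hP'1, hP'2⟩ := ih n' hn'lt hn'pos
      by_cases hlp : (ℓ : ℕ) ∣ p
      · -- `l = p`: the operator `U_p`
        have hlp' : (ℓ : ℕ) = p := (Nat.prime_dvd_prime_iff_eq hl hp).mp hlp
        refine ⟨P' * MvPolynomial.X ℓ, fun f => ?_, ?_⟩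
        · rw [map_mul, Module.End.mul_apply, hP'1, actHom_X_of_dvd p ℓ hlp,
            Fermat.Agent.S49.qCoeff_heckeULin hl hlp, hnmul]
        · rw [map_mul, hP'2, MvPolynomial.aeval_X, eisensteinSystem_of_dvd hlp,
            mul_one, hnmul, hlp', sigmaPrime_mul_self hp (by omega)]
      · -- `l ≠ p`: the operator `T_l`
        have hlp' : (ℓ : ℕ) ≠ p := fun h => hlp (h ▸ dvd_rfl)
        by_cases hln : (ℓ : ℕ) ∣ n'
        · obtain ⟨n'', hn''⟩ := hln
          have hn''pos : 1 ≤ n'' := by
            rcases Nat.eq_zero_or_pos n'' with h | h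
            · subst h; omega
            · exact h
          have hn''lt : n'' < n := by
            have := hl.two_le
            nlinarith
          have hdiv : n' / (ℓ : ℕ) = n'' := by
            rw [hn'']; exact Nat.mul_div_cancel_left n'' hl.pos
          obtain ⟨P'', hP''1, hP''2⟩ := ih n'' hn''lt hn''pos
          refine ⟨P' * MvPolynomial.X ℓ - MvPolynomial.C ((ℓ : ℕ) : ℤ) * P'', fun f => ?_, ?_⟩
          · rw [map_sub, map_mul, map_mul, LinearMap.sub_apply, Module.End.mul_apply,
              Module.End.mul_apply, actHom_C, actHom_X_of_not_dvd p ℓ hlp]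
            have hsub := map_sub (Fermat.Agent.S49.qCoeffLin p 2 1)
              (actHom p P' (heckeTLin 2 hl hlp f)) ((((ℓ : ℕ) : ℤ) : ℂ) • actHom p P'' f)
            simp only [Fermat.Agent.S49.qCoeffLin_apply] at hsub
            rw [hsub, hP'1, Fermat.Agent.S49.qCoeff_smul, hP''1,
              Fermat.Agent.S49.qCoeff_heckeTLin hl hlp, if_pos ⟨n'', hn''⟩, hdiv, hnmul]
            push_cast
            ring
          · have hrec := sigmaPrime_mul_prime hp hl hlp' (n := n') (by omega)
            rw [if_pos ⟨n'', hn''⟩, hdiv] at hrec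
            rw [map_sub, map_mul, map_mul, hP'2, hP''2, MvPolynomial.aeval_X, MvPolynomial.aeval_C,
              eisensteinSystem_of_not_dvd hlp, hnmul]
            simp only [algebraMap_int_eq]
            linear_combination (-1 : ℤ) * hrec
        · refine ⟨P' * MvPolynomial.X ℓ, fun f => ?_, ?_⟩
          · rw [map_mul, Module.End.mul_apply, hP'1, actHom_X_of_not_dvd p ℓ hlp,
              Fermat.Agent.S49.qCoeff_heckeTLin hl hlp, if_neg hln, add_zero, hnmul]
          · have hrec := sigmaPrime_mul_prime hp hl hlp' (n := n') (by omega)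
            rw [if_neg hln, add_zero] at hrec
            rw [map_mul, hP'2, MvPolynomial.aeval_X,
              eisensteinSystem_of_not_dvd hlp, hnmul]
            linear_combination (-1 : ℤ) * hrec

/-! ### The lattice, the Hecke ring and the pairing -/

/-- The lattice of cusp forms with integral `q`-expansion. -/
abbrev Lat : Type := ↥(intLattice p 2)

/-- The Hecke ring of the frozen statement. -/
abbrev TT : Type := ↥(heckeLatticeAlgebra p ∅)

theorem exists_int_coeff (f : Lat p) (n : ℕ) :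
    ∃ m : ℤ, qCoeff ⇑(f : CuspForm (Gamma0 p) 2) n = (m : ℂ) :=
  (Fermat.Agent.S49.mem_intLattice_iff _).1 f.2 n

/-- The `n`-th `q`-coefficient, as an integer valued functional on the lattice. -/
def cf (n : ℕ) : Lat p →ₗ[ℤ] ℤ where
  toFun f := (exists_int_coeff p f n).choose
  map_add' f g := by
    apply Int.cast_injective (α := ℂ)
    rw [Int.cast_add, ← (exists_int_coeff p f n).choose_spec,
      ← (exists_int_coeff p g n).choose_spec, ← (exists_int_coeff p (f + g) n).choose_spec]
    exact Fermat.Agent.S49.qCoeff_add _ _ n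
  map_smul' c f := by
    apply Int.cast_injective (α := ℂ)
    rw [RingHom.id_apply, smul_eq_mul, Int.cast_mul, ← (exists_int_coeff p f n).choose_spec,
      ← (exists_int_coeff p (c • f) n).choose_spec]
    exact Fermat.Agent.S49.qCoeff_zsmul c _ n

theorem cf_spec (n : ℕ) (f : Lat p) :
    ((cf p n f : ℤ) : ℂ) = qCoeff ⇑(f : CuspForm (Gamma0 p) 2) n :=
  ((exists_int_coeff p f n).choose_spec).symm

theorem rho_apply_coe (P : ModularCurve.HeckeAlg) (f : Lat p) :
    ((((rho p P : TT p) : Module.End ℤ (Lat p)) f : Lat p) : CuspForm (Gamma0 p) 2)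
      = actHom p P (f : CuspForm (Gamma0 p) 2) := rfl

theorem exists_heckePoly_lat (n : ℕ) (hn : 1 ≤ n) : ∃ P : ModularCurve.HeckeAlg,
    (∀ f : Lat p, cf p 1 (((rho p P : TT p) : Module.End ℤ (Lat p)) f) = cf p n f) ∧
      MvPolynomial.aeval (ModularCurve.eisensteinSystem p) P = sigmaPrime p n := by
  obtain ⟨P, hP1, hP2⟩ := exists_heckePoly p n hn
  refine ⟨P, fun f => ?_, hP2⟩
  apply Int.cast_injective (α := ℂ)
  rw [cf_spec, cf_spec, rho_apply_coe, hP1]

/-- The pairing `(t, f) ↦ a₁(t f)`. -/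
def pairing : TT p →ₗ[ℤ] Lat p →ₗ[ℤ] ℤ :=
  LinearMap.mk₂ ℤ (fun (t : TT p) (f : Lat p) => cf p 1 ((t : Module.End ℤ (Lat p)) f))
    (fun t₁ t₂ f => by
      rw [Subalgebra.coe_add, LinearMap.add_apply, map_add])
    (fun c t f => by
      rw [Subalgebra.coe_smul, LinearMap.smul_apply, map_smul])
    (fun t f g => by rw [map_add, map_add])
    (fun c t f => by rw [map_smul, map_smul])

theorem pairing_apply (t : TT p) (f : Lat p) :
    pairing p t f = cf p 1 ((t : Module.End ℤ (Lat p)) f) := rfl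

theorem eq_zero_of_cf (f : Lat p) (h : ∀ n, 1 ≤ n → cf p n f = 0) : f = 0 := by
  apply Subtype.ext
  apply Fermat.Agent.S49.eq_zero_of_qCoeff
  intro n
  rcases Nat.eq_zero_or_pos n with rfl | hn
  · exact Fermat.Agent.S49.qCoeff_cusp_zero _
  · rw [← cf_spec, h n hn, Int.cast_zero]

theorem pairing_injective : Function.Injective (pairing p) := by
  rw [injective_iff_map_eq_zero]
  intro t ht
  apply Subtype.ext
  refine LinearMap.ext fun f => ?_
  apply eq_zero_of_cf
  intro n hn
  obtain ⟨P, hP, -⟩ := exists_heckePoly_lat p n hn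
  have hcomm : ((rho p P : TT p) : Module.End ℤ (Lat p)) ((t : Module.End ℤ (Lat p)) f)
      = (t : Module.End ℤ (Lat p)) (((rho p P : TT p) : Module.End ℤ (Lat p)) f) := by
    have h2 := congrArg (fun x : TT p => (x : Module.End ℤ (Lat p)) f) (mul_comm (rho p P) t)
    simpa using h2
  rw [← hP, hcomm]
  exact LinearMap.congr_fun ht (((rho p P : TT p) : Module.End ℤ (Lat p)) f)

theorem pairing_flip_injective : Function.Injective (pairing p).flip := by
  rw [injective_iff_map_eq_zero]
  intro f hf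
  apply eq_zero_of_cf
  intro n hn
  obtain ⟨P, hP, -⟩ := exists_heckePoly_lat p n hn
  rw [← hP]
  exact LinearMap.congr_fun hf (rho p P)

theorem finrank_lat_eq : Module.finrank ℤ (Lat p) = Module.finrank ℤ (TT p) := by
  have := intLattice.moduleFinite p
  have := intLattice.moduleFree p
  apply le_antisymm
  · have h := LinearMap.finrank_le_finrank_of_injective (pairing_flip_injective p)
    rwa [Module.finrank_linearMap, Module.finrank_self, mul_one] at h
  · have h := LinearMap.finrank_le_finrank_of_injective (pairing_injective p)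
    rwa [Module.finrank_linearMap, Module.finrank_self, mul_one] at h

/-- Every functional on the Hecke ring is, up to a nonzero integer multiple, given by pairing with
a lattice form. -/
theorem exists_nsmul_eq_pairing (lam : TT p →ₗ[ℤ] ℤ) :
    ∃ (N : ℕ) (g : Lat p), N ≠ 0 ∧ ∀ t : TT p, pairing p t g = (N : ℤ) * lam t := by
  have := intLattice.moduleFinite p
  have := intLattice.moduleFree p
  set R : Submodule ℤ (TT p →ₗ[ℤ] ℤ) := LinearMap.range (pairing p).flip with hR
  have hrank : Module.finrank ℤ R = Module.finrank ℤ (TT p →ₗ[ℤ] ℤ) := by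
    rw [hR, LinearMap.finrank_range_of_inj (pairing_flip_injective p), Module.finrank_linearMap,
      Module.finrank_self, mul_one, finrank_lat_eq]
  have : Finite ((TT p →ₗ[ℤ] ℤ) ⧸ R) := Submodule.finiteQuotientOfFreeOfRankEq R hrank
  have hcard : Nat.card ((TT p →ₗ[ℤ] ℤ) ⧸ R) ≠ 0 := Nat.card_pos.ne'
  have h0 : Nat.card ((TT p →ₗ[ℤ] ℤ) ⧸ R) • (Submodule.Quotient.mk lam : (TT p →ₗ[ℤ] ℤ) ⧸ R) = 0 :=
    card_nsmul_eq_zero'
  rw [← Submodule.Quotient.mk_smul, Submodule.Quotient.mk_eq_zero] at h0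
  obtain ⟨g, hg⟩ := h0
  refine ⟨Nat.card ((TT p →ₗ[ℤ] ℤ) ⧸ R), g, hcard, fun t => ?_⟩
  have := LinearMap.congr_fun hg t
  simpa using this

/-! ### Surjectivity of `rho` and the Eisenstein functional -/

theorem heckeEvalForms_surjective : Function.Surjective (heckeEvalForms p 2) := by
  rintro ⟨t, ht⟩
  induction ht using Algebra.adjoin_induction with
  | mem x hx =>
    rcases hx with ⟨ℓ, hℓ, hℓN, -, rfl⟩ | ⟨q, hqN, hq, -, rfl⟩
    · refine ⟨heckeGen ⟨ℓ, hℓ⟩, ?_⟩
      rw [heckeEvalForms_heckeGen_of_not_dvd (show ¬ ((⟨ℓ, hℓ⟩ : Nat.Primes) : ℕ) ∣ p from hℓN)]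
      rfl
    · refine ⟨heckeGen ⟨q, hq⟩, ?_⟩
      rw [heckeEvalForms_heckeGen_of_dvd (show ((⟨q, hq⟩ : Nat.Primes) : ℕ) ∣ p from hqN)]
      rfl
  | algebraMap r => exact ⟨MvPolynomial.C r, by rw [heckeEvalForms_C]; rfl⟩
  | add x y hx hy ihx ihy =>
    obtain ⟨P, hP⟩ := ihx
    obtain ⟨Q, hQ⟩ := ihy
    exact ⟨P + Q, by rw [map_add, hP, hQ]; rfl⟩
  | mul x y hx hy ihx ihy =>
    obtain ⟨P, hP⟩ := ihx
    obtain ⟨Q, hQ⟩ := ihy
    exact ⟨P * Q, by rw [map_mul, hP, hQ]; rfl⟩

theorem rho_surjective : Function.Surjective (rho p) :=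
  (latticeRestrictHom_surjective p ∅).comp (heckeEvalForms_surjective p)

/-- Abstract lifting lemma: a functional modulo `m` that factors through a surjection onto a
finite free `ℤ`-module lifts to a `ℤ`-linear functional. -/
theorem exists_lift_mod {A M : Type*} [AddCommGroup A] [AddCommGroup M]
    [Module.Free ℤ M] [Module.Finite ℤ M]
    (r : A →+ M) (hr : Function.Surjective r) (e : A →+ ℤ) (m : ℤ)
    (hm : ∀ P, r P = 0 → m ∣ e P) : ∃ lam : M →ₗ[ℤ] ℤ, ∀ P, m ∣ lam (r P) - e P := by
  classical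
  let b := Module.Free.chooseBasis ℤ M
  choose Q hQ using fun i => hr (b i)
  refine ⟨b.constr ℤ (fun i => e (Q i)), fun P => ?_⟩
  have h1 : r (∑ i, b.repr (r P) i • Q i) = r P := by
    rw [map_sum]
    conv_rhs => rw [← b.sum_repr (r P)]
    exact Finset.sum_congr rfl fun i _ => by rw [map_zsmul, hQ]
  have h2 : r (∑ i, b.repr (r P) i • Q i - P) = 0 := by rw [map_sub, h1, sub_self]
  have h3 := hm _ h2
  have h4 : b.constr ℤ (fun i => e (Q i)) (r P) = ∑ i, b.repr (r P) i * e (Q i) := by
    rw [Module.Basis.constr_apply_fintype]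
    exact Finset.sum_congr rfl fun i _ => by rw [Module.Basis.equivFun_apply, smul_eq_mul]
  have h5 : e (∑ i, b.repr (r P) i • Q i - P) = ∑ i, b.repr (r P) i * e (Q i) - e P := by
    rw [map_sub, map_sum]
    congr 1
    exact Finset.sum_congr rfl fun i _ => by rw [map_zsmul, smul_eq_mul]
  rw [h4, ← h5]
  exact h3

/-- A `ℤ`-linear functional on the Hecke ring lifting the Eisenstein character modulo `m`. -/
theorem exists_functional (m : ℕ)
    (hm : ∀ P : ModularCurve.HeckeAlg, rho p P = 0 →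
      (m : ℤ) ∣ MvPolynomial.aeval (ModularCurve.eisensteinSystem p) P) :
    ∃ lam : TT p →ₗ[ℤ] ℤ, ∀ P : ModularCurve.HeckeAlg,
      (m : ℤ) ∣ lam (rho p P) - MvPolynomial.aeval (ModularCurve.eisensteinSystem p) P :=
  exists_lift_mod (rho p).toAddMonoidHom (rho_surjective p)
    (MvPolynomial.aeval (ModularCurve.eisensteinSystem p)).toRingHom.toAddMonoidHom (m : ℤ) hm

/-- **Duality (R-B).**  If the Eisenstein character modulo `m` factors through the Hecke ring,
there is a weight-two cusp form of level `p` whose `q`-coefficients are integers congruent to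
`σ'(k)` modulo `m`. -/
theorem exists_form_congruent (m : ℕ)
    (hm : ∀ P : ModularCurve.HeckeAlg, rho p P = 0 →
      (m : ℤ) ∣ MvPolynomial.aeval (ModularCurve.eisensteinSystem p) P) :
    ∃ f : CuspForm (CongruenceSubgroup.Gamma0 p) 2, ∀ k : ℕ, 0 < k →
      ∃ a : ℤ, ModularFormClass.qCoeff f k = (a : ℂ) ∧ (m : ℤ) ∣ a - sigmaPrime p k := by
  obtain ⟨lam, hlam⟩ := exists_functional p m hm
  obtain ⟨N, g, hN, hg⟩ := exists_nsmul_eq_pairing p lam
  refine ⟨((N : ℂ)⁻¹) • (g : CuspForm (Gamma0 p) 2), fun k hk => ?_⟩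
  obtain ⟨P, hP1, hP2⟩ := exists_heckePoly_lat p k hk
  refine ⟨lam (rho p P), ?_, ?_⟩
  · have h1 : cf p k g = (N : ℤ) * lam (rho p P) := by
      rw [← hP1 g, ← pairing_apply, hg]
    have hN' : (N : ℂ) ≠ 0 := Nat.cast_ne_zero.mpr hN
    rw [Fermat.Agent.S49.qCoeff_smul, ← cf_spec p k g, h1]
    push_cast
    field_simp
  · rw [← hP2]
    exact hlam P

end Fermat.Agent.S16.H18
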